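/-
S48 / Tower A1 / A1-RED, node G-BR1 (helper48), part 1 — ABSTRACT.  Mathlib + Lib/ValConj only.

The field `unramified` of `Fermat.Agent.S18.Alg.GoodModel` at the TOP of the tower:

  at every place `O` of `Ω` over the constants where the coordinate `x` takes a value `c` outside
  the branch set, `x - c` is a uniformiser of `O`.

`Ω` is a field with a finite group `G` of automorphisms whose fixed field is `E(x)` (in the form
"every invariant element is `P(x)/Q(x)`", exactly the conclusion of `H828.iact_fixed_iff`).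

* `br_unramified_of_place` : if ONE valuation subring `O₁ ⊇ E` with `x - c ∈ 𝔪` has `x - c` as a
  uniformiser, then EVERY valuation subring `O ⊇ E` with `x - c ∈ 𝔪` has (all places over `x = c`
  are conjugate under `G`: `Lib.ValConj.exists_smul_eq_of_fixed_mem_iff`).
* `brPlace σ` : the valuation subring `{t | 0 ≤ ord (σ t)}` attached to a ring homomorphism
  `σ : Ω → K((z))`; `brPlace_unif` : `ord (σ π) = 1` makes `π` a uniformiser of it.
* `br_unramified_of_laurent` : the two combined.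
* `br_descend` : the statement descends along any field embedding `ι : Ω' → Ω`
  (so it holds for every intermediate field once it holds for the full-level field).
-/
import Mathlib.RingTheory.Valuation.ValuationSubring
import Mathlib.RingTheory.Valuation.LocalSubring
import Mathlib.RingTheory.LaurentSeries
import Mathlib.Algebra.Polynomial.Div
import Fermat.Agent.Lib.ValConj.Conj

set_option autoImplicit false

open scoped Pointwise

namespace Fermat.Agent.S48.H48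

open Polynomial

section valuation

variable {Ω E : Type*} [Field Ω] [Field E]

/-- values of polynomials lie in a valuation subring containing the constants and `x` -/
theorem br_eval_mem (φ : E →+* Ω) {x : Ω} (O : ValuationSubring Ω) (hE : ∀ e, φ e ∈ O)
    (hx : x ∈ O) (P : E[X]) : P.eval₂ φ x ∈ O := by
  induction P using Polynomial.induction_on' with
  | add p q hp hq => rw [eval₂_add]; exact O.add_mem _ _ hp hq
  | monomial n a =>
    rw [eval₂_monomial]
    exact O.mul_mem _ _ (hE a) (pow_mem hx n)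

theorem br_x_mem (φ : E →+* Ω) {x : Ω} (c : E) (O : ValuationSubring Ω) (hE : ∀ e, φ e ∈ O)
    (h : x - φ c ∈ O) : x ∈ O := by
  have := O.add_mem _ _ h (hE c)
  rwa [sub_add_cancel] at this

theorem br_val_const (φ : E →+* Ω) (O : ValuationSubring Ω) (hE : ∀ e, φ e ∈ O) {e : E}
    (he : e ≠ 0) : O.valuation (φ e) = 1 := by
  have h1 : O.valuation (φ e) ≤ 1 := (O.valuation_le_one_iff _).2 (hE e)
  have h2 : O.valuation (φ e⁻¹) ≤ 1 := (O.valuation_le_one_iff _).2 (hE e⁻¹)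
  have h3 : O.valuation (φ e) * O.valuation (φ e⁻¹) = 1 := by
    rw [← map_mul, ← map_mul, mul_inv_cancel₀ he, map_one, map_one]
  have h0 : O.valuation (φ e) ≠ 0 := fun h => by rw [h, zero_mul] at h3; exact zero_ne_one h3
  refine le_antisymm h1 ?_
  calc (1 : O.ValueGroup) = O.valuation (φ e) * O.valuation (φ e⁻¹) := h3.symm
    _ ≤ O.valuation (φ e) * 1 := by gcongr
    _ = O.valuation (φ e) := mul_one _

theorem br_val_pi_lt (O : ValuationSubring Ω) {π : Ω} (h : π ∈ O) (h' : π⁻¹ ∉ O) :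
    O.valuation π < 1 := by
  have h1 : O.valuation π ≤ 1 := (O.valuation_le_one_iff _).2 h
  refine lt_of_le_of_ne h1 fun h2 => h' ?_
  rw [← O.valuation_le_one_iff, map_inv₀, h2, inv_one]

theorem br_pi_ne_zero (O : ValuationSubring Ω) {π : Ω} (h' : π⁻¹ ∉ O) : π ≠ 0 := by
  rintro rfl
  rw [inv_zero] at h'
  exact h' O.zero_mem

/-- a polynomial not vanishing at `c` takes a unit value at `x` -/
theorem br_val_eval_eq_one (φ : E →+* Ω) {x : Ω} (c : E) (O : ValuationSubring Ω)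
    (hE : ∀ e, φ e ∈ O) (h : x - φ c ∈ O) (h' : (x - φ c)⁻¹ ∉ O) (P : E[X])
    (hP : P.eval c ≠ 0) : O.valuation (P.eval₂ φ x) = 1 := by
  obtain ⟨H, hH⟩ := X_sub_C_dvd_sub_C_eval (p := P) (a := c)
  have hx : x ∈ O := br_x_mem φ c O hE h
  have e1 : P.eval₂ φ x = φ (P.eval c) + (x - φ c) * H.eval₂ φ x := by
    have := congrArg (eval₂ φ x) hH
    rw [eval₂_sub, eval₂_C, eval₂_mul, eval₂_sub, eval₂_X, eval₂_C] at this
    rw [← this]; ring
  have h1 : O.valuation (φ (P.eval c)) = 1 := br_val_const φ O hE hP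
  have h2 : O.valuation ((x - φ c) * H.eval₂ φ x) < 1 := by
    rw [map_mul]
    have ha := br_val_pi_lt O h h'
    have hb : O.valuation (H.eval₂ φ x) ≤ 1 :=
      (O.valuation_le_one_iff _).2 (br_eval_mem φ O hE hx H)
    calc O.valuation (x - φ c) * O.valuation (H.eval₂ φ x)
        ≤ O.valuation (x - φ c) * 1 := by gcongr
      _ = O.valuation (x - φ c) := mul_one _
      _ < 1 := ha
  rw [e1, Valuation.map_add_eq_of_lt_left _ (by rw [h1]; exact h2), h1]

/-- `y ^ a / y ^ b ≤ 1 ↔ b ≤ a` for `0 < y < 1` in a linearly ordered group with zero -/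
theorem br_pow_div_le_one_iff {Γ : Type*} [LinearOrderedCommGroupWithZero Γ] {y : Γ}
    (hy0 : y ≠ 0) (hy1 : y < 1) (a b : ℕ) : y ^ a / y ^ b ≤ 1 ↔ b ≤ a := by
  constructor
  · intro hle
    by_contra hlt
    rw [not_le] at hlt
    obtain ⟨k, rfl⟩ := Nat.exists_eq_add_of_lt hlt
    have hk : y ^ (k + 1) < 1 := pow_lt_one₀ zero_le hy1 (Nat.succ_ne_zero k)
    have e : y ^ a / y ^ (a + k + 1) = (y ^ (k + 1))⁻¹ := by
      rw [show a + k + 1 = a + (k + 1) by ring, pow_add, div_mul_eq_div_div,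
        div_self (pow_ne_zero a hy0), one_div]
    rw [e] at hle
    have hpos : y ^ (k + 1) ≠ 0 := pow_ne_zero _ hy0
    have : (1 : Γ) ≤ y ^ (k + 1) := by
      have := (inv_le_one₀ (zero_lt_iff.2 hpos)).1 hle
      exact this
    exact absurd hk (not_lt.2 this)
  · intro hba
    obtain ⟨k, rfl⟩ := Nat.exists_eq_add_of_le hba
    rw [pow_add, mul_div_cancel_left₀ _ (pow_ne_zero b hy0)]
    exact pow_le_one₀ zero_le hy1.le

/-- the valuation of `P(x)` for `P = (X - c)^a P₁`, `P₁(c) ≠ 0` -/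
theorem br_val_eval_pow (φ : E →+* Ω) {x : Ω} (c : E) (O : ValuationSubring Ω)
    (hE : ∀ e, φ e ∈ O) (h : x - φ c ∈ O) (h' : (x - φ c)⁻¹ ∉ O) (P : E[X]) (hP : P ≠ 0) :
    O.valuation (P.eval₂ φ x) = O.valuation (x - φ c) ^ P.rootMultiplicity c := by
  obtain ⟨P₁, hP₁, hnd⟩ := exists_eq_pow_rootMultiplicity_mul_and_not_dvd P hP c
  have hc : P₁.eval c ≠ 0 := fun h0 => hnd ((dvd_iff_isRoot).2 h0)
  conv_lhs => rw [hP₁]
  rw [eval₂_mul, eval₂_pow, eval₂_sub, eval₂_X, eval₂_C, map_mul, map_pow,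
    br_val_eval_eq_one φ c O hE h h' P₁ hc, mul_one]

/-- membership of `P(x)/Q(x)` in `O` only depends on root multiplicities at `c` -/
theorem br_quot_mem_iff (φ : E →+* Ω) {x : Ω} (c : E) (O : ValuationSubring Ω)
    (hE : ∀ e, φ e ∈ O) (h : x - φ c ∈ O) (h' : (x - φ c)⁻¹ ∉ O) (P Q : E[X]) (hP : P ≠ 0)
    (hQ : Q ≠ 0) :
    P.eval₂ φ x / Q.eval₂ φ x ∈ O ↔ Q.rootMultiplicity c ≤ P.rootMultiplicity c := by
  rw [← O.valuation_le_one_iff, map_div₀, br_val_eval_pow φ c O hE h h' P hP,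
    br_val_eval_pow φ c O hE h h' Q hQ]
  have hy0 : O.valuation (x - φ c) ≠ 0 := by
    rw [Ne, map_eq_zero]
    exact br_pi_ne_zero O h'
  exact br_pow_div_le_one_iff hy0 (br_val_pi_lt O h h') _ _

theorem br_quot_mem_of_mem (φ : E →+* Ω) {x : Ω} (c : E) (O₁ O : ValuationSubring Ω)
    (h₁E : ∀ e, φ e ∈ O₁) (h₁ : x - φ c ∈ O₁) (h₁' : (x - φ c)⁻¹ ∉ O₁)
    (hE : ∀ e, φ e ∈ O) (h : x - φ c ∈ O) (h' : (x - φ c)⁻¹ ∉ O) (P Q : E[X])
    (hz : P.eval₂ φ x / Q.eval₂ φ x ∈ O₁) : P.eval₂ φ x / Q.eval₂ φ x ∈ O := by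
  by_cases hP : P = 0
  · rw [hP, eval₂_zero, zero_div]; exact O.zero_mem
  by_cases hQ : Q = 0
  · rw [hQ, eval₂_zero, div_zero]; exact O.zero_mem
  rw [br_quot_mem_iff φ c O hE h h' P Q hP hQ]
  rwa [br_quot_mem_iff φ c O₁ h₁E h₁ h₁' P Q hP hQ] at hz

end valuation

section main

variable {Ω E G : Type*} [Field Ω] [Field E] [Group G] [Finite G] [MulSemiringAction G Ω]

/-- **All places over `x = c` are conjugate.** -/
theorem br_exists_smul_eq (φ : E →+* Ω) (x : Ω)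
    (hinv : ∀ z : Ω, (∀ g : G, g • z = z) →
      ∃ P Q : E[X], z = P.eval₂ φ x / Q.eval₂ φ x)
    (c : E) (O₁ O : ValuationSubring Ω)
    (h₁E : ∀ e, φ e ∈ O₁) (h₁ : x - φ c ∈ O₁) (h₁' : (x - φ c)⁻¹ ∉ O₁)
    (hE : ∀ e, φ e ∈ O) (h : x - φ c ∈ O) (h' : (x - φ c)⁻¹ ∉ O) :
    ∃ g : G, g • O₁ = O := by
  apply Fermat.Agent.Lib.ValConj.exists_smul_eq_of_fixed_mem_iff
  intro z hz
  obtain ⟨P, Q, rfl⟩ := hinv z hz
  exact ⟨br_quot_mem_of_mem φ c O₁ O h₁E h₁ h₁' hE h h' P Q,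
    br_quot_mem_of_mem φ c O O₁ hE h h' h₁E h₁ h₁' P Q⟩

/-- **G-BR1, abstract form.**  If `x - c` is a uniformiser at ONE place over `x = c`, it is a
uniformiser at EVERY place over `x = c`. -/
theorem br_unramified_of_place (φ : E →+* Ω) (x : Ω)
    (hfixE : ∀ (g : G) (e : E), g • φ e = φ e) (hfixx : ∀ g : G, g • x = x)
    (hinv : ∀ z : Ω, (∀ g : G, g • z = z) →
      ∃ P Q : E[X], z = P.eval₂ φ x / Q.eval₂ φ x)
    (c : E) (O₁ : ValuationSubring Ω)
    (h₁E : ∀ e, φ e ∈ O₁) (h₁ : x - φ c ∈ O₁) (h₁' : (x - φ c)⁻¹ ∉ O₁)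
    (h₁u : ∀ t ∈ O₁, t⁻¹ ∉ O₁ → t * (x - φ c)⁻¹ ∈ O₁)
    (O : ValuationSubring Ω) (hE : ∀ e, φ e ∈ O) (h : x - φ c ∈ O) (h' : (x - φ c)⁻¹ ∉ O) :
    ∀ t ∈ O, t⁻¹ ∉ O → t * (x - φ c)⁻¹ ∈ O := by
  obtain ⟨g, hg⟩ := br_exists_smul_eq (G := G) φ x hinv c O₁ O h₁E h₁ h₁' hE h h'
  intro t ht ht'
  have hπ : g • (x - φ c) = x - φ c := by rw [smul_sub, hfixx, hfixE]
  have hs : g⁻¹ • t ∈ O₁ := by
    rw [← ValuationSubring.mem_pointwise_smul_iff_inv_smul_mem, hg]; exact ht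
  have hs' : (g⁻¹ • t)⁻¹ ∉ O₁ := by
    intro hmem
    apply ht'
    rw [← hg, ValuationSubring.mem_pointwise_smul_iff_inv_smul_mem, smul_inv'']
    exact hmem
  have hu := h₁u _ hs hs'
  have hu' : g • ((g⁻¹ • t) * (x - φ c)⁻¹) ∈ g • O₁ :=
    ValuationSubring.smul_mem_pointwise_smul g _ O₁ hu
  rw [hg, smul_mul', smul_inv_smul, smul_inv'', hπ] at hu'
  exact hu'

end main

section laurent

variable {Ω K : Type*} [Field Ω] [Field K]

/-- The valuation subring `{t | 0 ≤ ord (σ t)}` of `Ω` attached to `σ : Ω → K((z))`. -/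
def brPlace (σ : Ω →+* LaurentSeries K) : ValuationSubring Ω where
  carrier := {t | 0 ≤ (σ t).order}
  mul_mem' := by
    intro a b ha hb
    simp only [Set.mem_ofPred_eq] at ha hb ⊢
    by_cases ha0 : σ a = 0
    · rw [map_mul, ha0, zero_mul, HahnSeries.order_zero]
    by_cases hb0 : σ b = 0
    · rw [map_mul, hb0, mul_zero, HahnSeries.order_zero]
    rw [map_mul, HahnSeries.order_mul ha0 hb0]
    exact add_nonneg ha hb
  one_mem' := by
    simp only [Set.mem_ofPred_eq, map_one]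
    rw [HahnSeries.order_one]
  add_mem' := by
    intro a b ha hb
    simp only [Set.mem_ofPred_eq] at ha hb ⊢
    by_cases hab : σ a + σ b = 0
    · rw [map_add, hab, HahnSeries.order_zero]
    rw [map_add]
    exact le_trans (le_min ha hb) (HahnSeries.min_order_le_order_add hab)
  zero_mem' := by
    simp only [Set.mem_ofPred_eq, map_zero]
    rw [HahnSeries.order_zero]
  neg_mem' := by
    intro a ha
    simp only [Set.mem_ofPred_eq] at ha ⊢
    rwa [map_neg, HahnSeries.order_neg]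
  mem_or_inv_mem' := by
    intro a
    simp only [Set.mem_ofPred_eq]
    by_cases ha0 : a = 0
    · left; rw [ha0, map_zero, HahnSeries.order_zero]
    have hσa : σ a ≠ 0 := (map_ne_zero σ).2 ha0
    have hσa' : σ a⁻¹ ≠ 0 := (map_ne_zero σ).2 (inv_ne_zero ha0)
    have hsum : (σ a).order + (σ a⁻¹).order = 0 := by
      rw [← HahnSeries.order_mul hσa hσa', ← map_mul, mul_inv_cancel₀ ha0, map_one,
        HahnSeries.order_one]
    rcases le_total 0 (σ a).order with h | h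
    · exact Or.inl h
    · right; omega

theorem mem_brPlace {σ : Ω →+* LaurentSeries K} {t : Ω} :
    t ∈ brPlace σ ↔ 0 ≤ (σ t).order := Iff.rfl

theorem brPlace_order_inv {σ : Ω →+* LaurentSeries K} {a : Ω} (ha0 : a ≠ 0) :
    (σ a⁻¹).order = -(σ a).order := by
  have hσa : σ a ≠ 0 := (map_ne_zero σ).2 ha0
  have hσa' : σ a⁻¹ ≠ 0 := (map_ne_zero σ).2 (inv_ne_zero ha0)
  have hsum : (σ a).order + (σ a⁻¹).order = 0 := by
    rw [← HahnSeries.order_mul hσa hσa', ← map_mul, mul_inv_cancel₀ ha0, map_one,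
      HahnSeries.order_one]
  omega

/-- an element with `ord (σ π) = 1` is a uniformiser of `brPlace σ` -/
theorem brPlace_unif (σ : Ω →+* LaurentSeries K) {π : Ω} (hπ : (σ π).order = 1) :
    π ∈ brPlace σ ∧ π⁻¹ ∉ brPlace σ ∧
      ∀ t ∈ brPlace σ, t⁻¹ ∉ brPlace σ → t * π⁻¹ ∈ brPlace σ := by
  have hπ0 : π ≠ 0 := by
    rintro rfl
    rw [map_zero, HahnSeries.order_zero] at hπ
    exact zero_ne_one hπ
  refine ⟨?_, ?_, ?_⟩
  · rw [mem_brPlace, hπ]; exact zero_le_one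
  · rw [mem_brPlace, brPlace_order_inv hπ0, hπ]; norm_num
  · intro t ht ht'
    have ht0 : t ≠ 0 := by
      rintro rfl
      rw [inv_zero] at ht'
      exact ht' (brPlace σ).zero_mem
    rw [mem_brPlace] at ht
    rw [mem_brPlace, brPlace_order_inv ht0] at ht'
    have hσt : σ t ≠ 0 := (map_ne_zero σ).2 ht0
    have hσπ' : σ π⁻¹ ≠ 0 := (map_ne_zero σ).2 (inv_ne_zero hπ0)
    rw [mem_brPlace, map_mul, HahnSeries.order_mul hσt hσπ', brPlace_order_inv hπ0, hπ]
    omega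

theorem brPlace_const (σ : Ω →+* LaurentSeries K) {a : Ω} (ha : ∃ k : K, σ a = HahnSeries.C k) :
    a ∈ brPlace σ := by
  obtain ⟨k, hk⟩ := ha
  rw [mem_brPlace, hk, HahnSeries.order_C]

end laurent

section combined

variable {Ω E G K : Type*} [Field Ω] [Field E] [Group G] [Finite G] [MulSemiringAction G Ω]
  [Field K]

/-- **G-BR1 from ONE local expansion.**  `Ω ⊇ E(x) = Ω^G`; `σ : Ω → K((z))` a ring homomorphism,
constant on `E`, with `ord_z σ(x - c) = 1`.  Then at EVERY place `O` of `Ω` over `E` with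
`x - c ∈ 𝔪_O`, the element `x - c` is a uniformiser. -/
theorem br_unramified_of_laurent (φ : E →+* Ω) (x : Ω)
    (hfixE : ∀ (g : G) (e : E), g • φ e = φ e) (hfixx : ∀ g : G, g • x = x)
    (hinv : ∀ z : Ω, (∀ g : G, g • z = z) →
      ∃ P Q : E[X], z = P.eval₂ φ x / Q.eval₂ φ x)
    (c : E) (σ : Ω →+* LaurentSeries K) (hσE : ∀ e : E, ∃ k : K, σ (φ e) = HahnSeries.C k)
    (hσ : (σ (x - φ c)).order = 1)
    (O : ValuationSubring Ω) (hE : ∀ e, φ e ∈ O) (h : x - φ c ∈ O) (h' : (x - φ c)⁻¹ ∉ O) :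
    ∀ t ∈ O, t⁻¹ ∉ O → t * (x - φ c)⁻¹ ∈ O := by
  obtain ⟨h1, h2, h3⟩ := brPlace_unif σ hσ
  exact br_unramified_of_place (G := G) φ x hfixE hfixx hinv c (brPlace σ)
    (fun e => brPlace_const σ (hσE e)) h1 h2 h3 O hE h h'

end combined

section descend

variable {Ω' Ω : Type*} [Field Ω'] [Field Ω]

/-- every valuation subring of `Ω'` is the trace of a valuation subring of `Ω` -/
theorem br_exists_comap_eq (ι : Ω' →+* Ω) (O' : ValuationSubring Ω') :
    ∃ O : ValuationSubring Ω, O.comap ι = O' := by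
  obtain ⟨A, hA, hloc⟩ :=
    IsLocalRing.exists_factor_valuationRing (ι.comp (O'.subtype))
  refine ⟨A, ?_⟩
  have hle : O' ≤ A.comap ι := by
    intro t ht
    rw [ValuationSubring.mem_comap]
    exact hA ⟨t, ht⟩
  refine le_antisymm ?_ hle
  intro t ht
  rw [ValuationSubring.mem_comap] at ht
  by_contra htO
  have ht0 : t ≠ 0 := fun h0 => htO (h0 ▸ O'.zero_mem)
  have hinvmem : t⁻¹ ∈ O' := (O'.mem_or_inv_mem t).resolve_left htO
  -- `ι t⁻¹` is a unit of `A`, so `t⁻¹` is a unit of `O'`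
  have hunit : IsUnit (((ι.comp O'.subtype).codRestrict A.toSubring hA) ⟨t⁻¹, hinvmem⟩) := by
    refine ⟨⟨⟨ι t⁻¹, hA ⟨t⁻¹, hinvmem⟩⟩, ⟨ι t, ht⟩, ?_, ?_⟩, rfl⟩
    · apply Subtype.ext
      show ι t⁻¹ * ι t = 1
      rw [← map_mul, inv_mul_cancel₀ ht0, map_one]
    · apply Subtype.ext
      show ι t * ι t⁻¹ = 1
      rw [← map_mul, mul_inv_cancel₀ ht0, map_one]
  have hunit' : IsUnit (⟨t⁻¹, hinvmem⟩ : O') := hloc.map_nonunit _ hunit
  obtain ⟨u, hu⟩ := hunit'
  apply htO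
  have h2 : ((u : O') : Ω') * (((u⁻¹ : O'ˣ) : O') : Ω') = 1 := by
    rw [← MulMemClass.coe_mul, Units.mul_inv]
    rfl
  have h3 : ((u : O') : Ω') = t⁻¹ := by rw [hu]
  rw [h3] at h2
  have h4 : (((u⁻¹ : O'ˣ) : O') : Ω') = t := by
    have := congrArg (fun z => t * z) h2
    simp only [mul_one] at this
    rw [← mul_assoc, mul_inv_cancel₀ ht0, one_mul] at this
    exact this
  rw [← h4]
  exact ((u⁻¹ : O'ˣ) : O').2

/-- **Descent of G-BR1** along a field embedding `ι : Ω' → Ω`: if `ι π'` is a uniformiser at every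
place of `Ω` (satisfying a condition `C`) where it is a non-unit, then `π'` is a uniformiser at
every place of `Ω'` whose extensions satisfy `C`. -/
theorem br_descend (ι : Ω' →+* Ω) (π' : Ω') (C : ValuationSubring Ω → Prop)
    (hΩ : ∀ O : ValuationSubring Ω, C O → ι π' ∈ O → (ι π')⁻¹ ∉ O →
      ∀ t ∈ O, t⁻¹ ∉ O → t * (ι π')⁻¹ ∈ O)
    (O' : ValuationSubring Ω') (hC : ∀ O : ValuationSubring Ω, O.comap ι = O' → C O)
    (h : π' ∈ O') (h' : π'⁻¹ ∉ O') :
    ∀ t ∈ O', t⁻¹ ∉ O' → t * π'⁻¹ ∈ O' := by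
  obtain ⟨O, hO⟩ := br_exists_comap_eq ι O'
  have hmem : ∀ a : Ω', a ∈ O' ↔ ι a ∈ O := fun a => by
    rw [← hO, ValuationSubring.mem_comap]
  intro t ht ht'
  rw [hmem, map_mul, map_inv₀]
  apply hΩ O (hC O hO) ((hmem _).1 h) (by rw [← map_inv₀, ← hmem]; exact h') (ι t)
    ((hmem _).1 ht)
  rw [← map_inv₀, ← hmem]
  exact ht'

end descend

end Fermat.Agent.S48.H48
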