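/-
S48 / Tower A1 / A1-RED, node G-BR1 (helper48), part 2 — CONCRETE, coordinate `j`.

On helper828's full-level field `IActField ι M` (level-`M` modular functions, `E`-rational at all
cusps; `E` ANY field with `ι : E →+* ℂ`, e.g. `E = ℚ̄`) with constants `iactFC` and coordinate
`iactFJ = j`:

  `br_unramified_j` : for `c : E` with `ι c ≠ 0, 1728` and EVERY valuation subring `O` of
  `IActField ι M` containing the constants with `j - c ∈ 𝔪_O`: `j - c` is a uniformiser of `O`.

This is the field `unramified` of `S18.Alg.GoodModel` (`x = j`, `S = {0, 1728}`) for the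
full-level field; `br_descend` (`BrAbs.lean`) carries it to every subfield (e.g. `F₁(M)`).

Proof: the Taylor expansion at a point `τ₀` with `j(τ₀) = c` (S24: `taylorLaurent`, `jFun_surjective`,
`analyticOrderAt_jFun_sub_generic`) gives ONE place where `j - c` is a uniformiser; all places over
`j = c` are conjugate under the finite group `SL₂(ℤ)/Γ(M)` (`br_unramified_of_laurent`), whose
fixed field is `E(j)` (`H828.iactQuot_fixed_iff`).
-/
import Fermat.Agent.S48.H48.BrAbs
import Fermat.Agent.S48.H828.IActField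
import Fermat.Agent.S24.Mod.H997Taylor

set_option autoImplicit false
set_option linter.unusedSectionVars false
set_option linter.style.haveILetI false

noncomputable section

open ModularCurve HahnSeries UpperHalfPlane ModularForm EisensteinSeries
open scoped MatrixGroups Manifold

namespace Fermat.Agent.S48.H48

open Fermat.Agent.S24 Fermat.Agent.S24.H997 Fermat.Agent.S24.H624 Fermat.Agent.S20.L1
  Fermat.Agent.S24.M7.H47 Fermat.Agent.S48.H828 Polynomial

variable {E : Type*} [Field E] [CharZero E] (ι : E →+* ℂ) (M : ℕ) [NeZero M]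

/-- the inclusion `iactRing → holoRing` -/
def brIncl : iactRing ι M →+* holoRing where
  toFun f := ⟨f.1, f.2.1⟩
  map_one' := rfl
  map_mul' _ _ := rfl
  map_zero' := rfl
  map_add' _ _ := rfl

theorem brIncl_injective : Function.Injective (brIncl ι M) := by
  intro f g h
  exact Subtype.ext (congrArg (fun u : holoRing => (u : ℍ → ℂ)) h)

/-- the Taylor expansion at `τ₀` on the full-level field -/
def brTaylor (τ₀ : ℍ) : IActField ι M →+* LaurentSeries ℂ :=
  IsFractionRing.lift (g := (taylorLaurent τ₀).comp (brIncl ι M))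
    ((taylorLaurent_injective τ₀).comp (brIncl_injective ι M))

theorem brTaylor_algebraMap (τ₀ : ℍ) (f : iactRing ι M) :
    brTaylor ι M τ₀ (algebraMap (iactRing ι M) (IActField ι M) f)
      = taylorLaurent τ₀ (brIncl ι M f) :=
  IsFractionRing.lift_algebraMap _ f

theorem brTaylor_const (τ₀ : ℍ) (e : E) :
    brTaylor ι M τ₀ (iactFC ι M e) = HahnSeries.C (ι e) := by
  rw [iactFC, RingHom.comp_apply, brTaylor_algebraMap]
  show HahnSeries.ofPowerSeries ℤ ℂ (taylorAt τ₀ (brIncl ι M (iactC ι M e))) = HahnSeries.C (ι e)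
  have : brIncl ι M (iactC ι M e) = algebraMap ℂ holoRing (ι e) := rfl
  rw [this, AlgHom.commutes, PowerSeries.algebraMap_apply, Algebra.algebraMap_self,
    RingHom.id_apply, HahnSeries.ofPowerSeries_C]

theorem brTaylor_order_j (τ₀ : ℍ) (c : E) (hc : jFun τ₀ = ι c) (h4 : E₄ τ₀ ≠ 0)
    (h6 : E₆ τ₀ ≠ 0) :
    (brTaylor ι M τ₀ (iactFJ ι M - iactFC ι M c)).order = 1 := by
  have e1 : iactFJ ι M - iactFC ι M c
      = algebraMap (iactRing ι M) (IActField ι M) (iactJ ι M - iactC ι M c) := by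
    rw [map_sub]; rfl
  rw [e1, brTaylor_algebraMap]
  show (HahnSeries.ofPowerSeries ℤ ℂ (taylorAt τ₀ (brIncl ι M _))).order = ((1 : ℕ) : ℤ)
  apply order_ofPowerSeries
  have hord := analyticOrderAt_jFun_sub_generic h4 h6
  rw [order_taylorAt, ordAt_def]
  have : ((brIncl ι M (iactJ ι M - iactC ι M c) : holoRing) : ℍ → ℂ) ∘ ofComplex
      = fun w : ℂ => jFun (ofComplex w) - jFun τ₀ := by
    funext w
    show jFun (ofComplex w) - ι c = _
    rw [hc]
  rw [this]
  exact_mod_cast hord

/-- **G-BR1 for the coordinate `j`** on the full-level field: at every place over `j = c`,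
`c ≠ 0, 1728`, the function `j - c` is a uniformiser. -/
theorem br_unramified_j (c : E) (h0 : ι c ≠ 0) (h1 : ι c ≠ 1728)
    (O : ValuationSubring (IActField ι M)) (hE : ∀ e, iactFC ι M e ∈ O)
    (h : iactFJ ι M - iactFC ι M c ∈ O) (h' : (iactFJ ι M - iactFC ι M c)⁻¹ ∉ O) :
    ∀ t ∈ O, t⁻¹ ∉ O → t * (iactFJ ι M - iactFC ι M c)⁻¹ ∈ O := by
  letI := iactQuotAction ι M
  obtain ⟨τ₀, hτ₀⟩ := jFun_surjective (ι c)
  have h4 : E₄ τ₀ ≠ 0 := fun h => h0 (hτ₀ ▸ (jFun_eq_zero_iff τ₀).mpr h)
  have h6 : E₆ τ₀ ≠ 0 := fun h => h1 (hτ₀ ▸ (jFun_eq_1728_iff τ₀).mpr h)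
  have hfix : ∀ (q : SL(2, ℤ) ⧸ CongruenceSubgroup.Gamma M) (P : E[X]),
      q • Polynomial.eval₂ (iactFC ι M) (iactFJ ι M) P
        = Polynomial.eval₂ (iactFC ι M) (iactFJ ι M) P := by
    intro q P
    obtain ⟨g, rfl⟩ := QuotientGroup.mk_surjective q
    exact iact_field_smul_eval₂ g P
  refine br_unramified_of_laurent (G := SL(2, ℤ) ⧸ CongruenceSubgroup.Gamma M)
    (iactFC ι M) (iactFJ ι M) ?_ ?_ ?_ c (brTaylor ι M τ₀) ?_ ?_ O hE h h'
  · intro q e
    have := hfix q (Polynomial.C e)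
    rwa [eval₂_C] at this
  · intro q
    have := hfix q Polynomial.X
    rwa [eval₂_X] at this
  · intro z hz
    obtain ⟨P, Q, -, hPQ⟩ := (iactQuot_fixed_iff z).1 hz
    exact ⟨P, Q, hPQ⟩
  · intro e
    exact ⟨ι e, brTaylor_const ι M τ₀ e⟩
  · exact brTaylor_order_j ι M τ₀ c hτ₀ h4 h6

end Fermat.Agent.S48.H48
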