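/-
S48 / Tower A1 / A1-RED, node G-BR1 (helper48), part 3 — ABSTRACT, other coordinates.

`Ω ⊇ E(x) = Ω^G` as in `BrAbs.lean`, `σ : Ω → K((z))` ONE local expansion with
`ord σ(x - c₀) = e ≥ 1` (e.g. `x = j`, `c₀ = 1728`, `e = 2`).  Let `y ∈ Ω` be another coordinate
and `c ∈ E` with a relation

    (x - c₀) · A = (y - c)^e · B,      A, B units at the place `O`.

Then `y - c` is a uniformiser of `O` (`br_unif_of_relation`): `O` is a conjugate of the place of
`σ`, so `O` is itself the place of an expansion `σ'` with `ord σ'(x - c₀) = e`, and the relation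
gives `e · ord σ'(y - c) = e`.

Used for the Hauptmoduln `t₂, t₃` of `X₀(2), X₀(3)` (`BrT.lean`), where the relation comes from
`j t₂² = (t₂ + 256)³` resp. `j t₃³ = (t₃ + 27)(t₃ + 243)³`.
-/
import Fermat.Agent.S48.H48.BrAbs

set_option autoImplicit false
set_option linter.unusedSectionVars false

open scoped Pointwise

namespace Fermat.Agent.S48.H48

open Polynomial

section

variable {Ω E G K : Type*} [Field Ω] [Field E] [Group G] [Finite G] [MulSemiringAction G Ω]
  [Field K]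

theorem br_order_pow (u : LaurentSeries K) (hu : u ≠ 0) (n : ℕ) :
    (u ^ n).order = n * u.order := by
  induction n with
  | zero => simp [HahnSeries.order_one]
  | succ n ih =>
    rw [pow_succ, HahnSeries.order_mul (pow_ne_zero n hu) hu, ih]
    push_cast
    ring

/-- the place of `σ ∘ g⁻¹` is the conjugate `g • brPlace σ` -/
theorem brPlace_comp_smul (σ : Ω →+* LaurentSeries K) (g : G) :
    brPlace (σ.comp (MulSemiringAction.toRingHom G Ω g⁻¹)) = g • brPlace σ := by
  ext t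
  rw [mem_brPlace, ValuationSubring.mem_pointwise_smul_iff_inv_smul_mem, mem_brPlace]
  rfl

/-- **Every place over `x = c₀` is the place of a local expansion** with the same order of
`x - c₀`. -/
theorem br_exists_expansion (φ : E →+* Ω) (x : Ω)
    (hfixE : ∀ (g : G) (e : E), g • φ e = φ e) (hfixx : ∀ g : G, g • x = x)
    (hinv : ∀ z : Ω, (∀ g : G, g • z = z) →
      ∃ P Q : E[X], z = P.eval₂ φ x / Q.eval₂ φ x)
    (c₀ : E) (σ : Ω →+* LaurentSeries K) (hσE : ∀ e : E, ∃ k : K, σ (φ e) = HahnSeries.C k)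
    (e : ℕ) (he : 1 ≤ e) (hσ : (σ (x - φ c₀)).order = e)
    (O : ValuationSubring Ω) (hE : ∀ e, φ e ∈ O) (h : x - φ c₀ ∈ O) (h' : (x - φ c₀)⁻¹ ∉ O) :
    ∃ σ' : Ω →+* LaurentSeries K, brPlace σ' = O ∧ (σ' (x - φ c₀)).order = e := by
  have hx0 : x - φ c₀ ≠ 0 := br_pi_ne_zero O h'
  have h1 : x - φ c₀ ∈ brPlace σ := by
    rw [mem_brPlace, hσ]; exact_mod_cast Nat.zero_le e
  have h1' : (x - φ c₀)⁻¹ ∉ brPlace σ := by
    rw [mem_brPlace, brPlace_order_inv hx0, hσ]
    have : (1 : ℤ) ≤ e := by exact_mod_cast he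
    omega
  obtain ⟨g, hg⟩ := br_exists_smul_eq (G := G) φ x hinv c₀ (brPlace σ) O
    (fun e => brPlace_const σ (hσE e)) h1 h1' hE h h'
  refine ⟨σ.comp (MulSemiringAction.toRingHom G Ω g⁻¹), ?_, ?_⟩
  · rw [brPlace_comp_smul, hg]
  · have : (MulSemiringAction.toRingHom G Ω g⁻¹) (x - φ c₀) = x - φ c₀ := by
      show g⁻¹ • (x - φ c₀) = x - φ c₀
      rw [smul_sub, hfixx, hfixE]
    rw [RingHom.comp_apply, this, hσ]

/-- **G-BR1 for a second coordinate `y`**, from a relation with the coordinate `x`. -/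
theorem br_unif_of_relation (φ : E →+* Ω) (x : Ω)
    (hfixE : ∀ (g : G) (e : E), g • φ e = φ e) (hfixx : ∀ g : G, g • x = x)
    (hinv : ∀ z : Ω, (∀ g : G, g • z = z) →
      ∃ P Q : E[X], z = P.eval₂ φ x / Q.eval₂ φ x)
    (c₀ : E) (σ : Ω →+* LaurentSeries K) (hσE : ∀ e : E, ∃ k : K, σ (φ e) = HahnSeries.C k)
    (e : ℕ) (he : 1 ≤ e) (hσ : (σ (x - φ c₀)).order = e)
    (y : Ω) (c : E) (A B : Ω) (hrel : (x - φ c₀) * A = (y - φ c) ^ e * B)
    (O : ValuationSubring Ω) (hE : ∀ e, φ e ∈ O) (h : y - φ c ∈ O) (h' : (y - φ c)⁻¹ ∉ O)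
    (hA : O.valuation A = 1) (hB : O.valuation B = 1) :
    ∀ t ∈ O, t⁻¹ ∉ O → t * (y - φ c)⁻¹ ∈ O := by
  have hπ0 : y - φ c ≠ 0 := br_pi_ne_zero O h'
  have hπlt : O.valuation (y - φ c) < 1 := br_val_pi_lt O h h'
  have hA0 : A ≠ 0 := fun h0 => by rw [h0, map_zero] at hA; exact zero_ne_one hA
  have hB0 : B ≠ 0 := fun h0 => by rw [h0, map_zero] at hB; exact zero_ne_one hB
  -- `x - c₀` is a nonunit of `O`
  have hval : O.valuation (x - φ c₀) = O.valuation (y - φ c) ^ e := by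
    have := congrArg O.valuation hrel
    rwa [map_mul, map_mul, map_pow, hA, hB, mul_one, mul_one] at this
  have hxlt : O.valuation (x - φ c₀) < 1 := by
    rw [hval]
    exact pow_lt_one₀ zero_le hπlt (Nat.one_le_iff_ne_zero.mp he)
  have hxmem : x - φ c₀ ∈ O := (O.valuation_le_one_iff _).1 hxlt.le
  have hxinv : (x - φ c₀)⁻¹ ∉ O := by
    intro hmem
    have h2 := (O.valuation_le_one_iff _).2 hmem
    have hx0' : O.valuation (x - φ c₀) ≠ 0 := by
      rw [hval]
      exact pow_ne_zero _ ((_root_.map_ne_zero _).2 hπ0)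
    rw [map_inv₀] at h2
    have h3 : (1 : O.ValueGroup) ≤ O.valuation (x - φ c₀) :=
      (inv_le_one₀ (zero_lt_iff.2 hx0')).1 h2
    exact absurd hxlt (not_lt.2 h3)
  obtain ⟨σ', hσ'O, hσ'⟩ := br_exists_expansion (G := G) φ x hfixE hfixx hinv c₀ σ hσE e he hσ
    O hE hxmem hxinv
  -- units of `O` have order `0`
  have hunit : ∀ u : Ω, O.valuation u = 1 → (σ' u).order = 0 := by
    intro u hu
    have hu0 : u ≠ 0 := fun h0 => by rw [h0, map_zero] at hu; exact zero_ne_one hu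
    have h1 : u ∈ brPlace σ' := by
      rw [hσ'O, ← O.valuation_le_one_iff, hu]
    have h2 : u⁻¹ ∈ brPlace σ' := by
      rw [hσ'O, ← O.valuation_le_one_iff, map_inv₀, hu, inv_one]
    rw [mem_brPlace] at h1
    rw [mem_brPlace, brPlace_order_inv hu0] at h2
    omega
  have hx0 : x - φ c₀ ≠ 0 := br_pi_ne_zero O hxinv
  have hord : ((e : ℤ)) = e * (σ' (y - φ c)).order := by
    have := congrArg (fun z => (σ' z).order) hrel
    simp only [map_mul, map_pow] at this
    rw [HahnSeries.order_mul ((_root_.map_ne_zero σ').2 hx0) ((_root_.map_ne_zero σ').2 hA0),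
      HahnSeries.order_mul (pow_ne_zero _ ((_root_.map_ne_zero σ').2 hπ0)) ((_root_.map_ne_zero σ').2 hB0),
      hunit A hA, hunit B hB, hσ', br_order_pow _ ((_root_.map_ne_zero σ').2 hπ0)] at this
    simpa using this
  have hone : (σ' (y - φ c)).order = 1 := by
    have he' : (e : ℤ) ≠ 0 := by
      have : (1 : ℤ) ≤ e := by exact_mod_cast he
      omega
    have : (e : ℤ) * ((σ' (y - φ c)).order - 1) = 0 := by
      rw [mul_sub, mul_one, ← hord, sub_self]
    rcases mul_eq_zero.1 this with h0 | h0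
    · exact absurd h0 he'
    · omega
  obtain ⟨-, -, h3⟩ := brPlace_unif σ' hone
  intro t ht ht'
  rw [← hσ'O] at ht ht' ⊢
  exact h3 t ht ht'

end

end Fermat.Agent.S48.H48
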