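/-
S48 / Tower A1 / A1-RED, node G-BR1 (helper48), part 4 — CONCRETE, coordinates `t₂`, `t₃`.

On helper828's full-level field `IActField ι M` (`E` any field of characteristic `0` with
`ι : E →+* ℂ`), for ANY element `y` satisfying the modular relation of the S18 coordinates
(`S18.Mod.IsCoordinate`):

* `br_unramified_t2` : `j y² = (y + 256)³`, `c ≠ 0, -64`  ⟹  `y - c` is a uniformiser at every
  place over `y = c`;
* `br_unramified_t3` : `j y³ = (y + 27)(y + 243)³`, `c ≠ 0, -27`  ⟹  the same.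

These are the field `unramified` of `S18.Alg.GoodModel` for the coordinates used at the residue
characteristics `3` and `2` (`S = {0, -64}` resp. `{0, -27}`); `br_descend` carries them to every
subfield.  Proof: `br_unif_of_relation` with the Taylor expansions at a generic point (`e = 1`),
at `i` (`j = 1728`, `e = 2`) and at `ρ` (`j = 0`, `e = 3`).
-/
import Fermat.Agent.S48.H48.BrRel
import Fermat.Agent.S48.H48.BrJ

set_option autoImplicit false
set_option linter.unusedSectionVars false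
set_option linter.style.haveILetI false

noncomputable section

open ModularCurve HahnSeries UpperHalfPlane ModularForm EisensteinSeries
open scoped MatrixGroups Manifold

namespace Fermat.Agent.S48.H48

open Fermat.Agent.S24 Fermat.Agent.S24.H997 Fermat.Agent.S24.H624 Fermat.Agent.S20.L1
  Fermat.Agent.S24.M7.H47 Fermat.Agent.S48.H828 Polynomial

variable {E : Type*} [Field E] [CharZero E] (ι : E →+* ℂ) (M : ℕ) [NeZero M]

/-- order of the Taylor expansion of `j - c₀` at a point over `c₀` -/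
theorem brTaylor_order_j_of (τ₀ : ℍ) (c₀ : E) (hc : jFun τ₀ = ι c₀) (n : ℕ)
    (hord : analyticOrderAt (fun w : ℂ => jFun (ofComplex w) - jFun τ₀) (τ₀ : ℂ) = n) :
    (brTaylor ι M τ₀ (iactFJ ι M - iactFC ι M c₀)).order = n := by
  have e1 : iactFJ ι M - iactFC ι M c₀
      = algebraMap (iactRing ι M) (IActField ι M) (iactJ ι M - iactC ι M c₀) := by
    rw [map_sub]; rfl
  rw [e1, brTaylor_algebraMap]
  show (HahnSeries.ofPowerSeries ℤ ℂ (taylorAt τ₀ (brIncl ι M _))).order = (n : ℤ)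
  apply order_ofPowerSeries
  rw [order_taylorAt, ordAt_def]
  have : ((brIncl ι M (iactJ ι M - iactC ι M c₀) : holoRing) : ℍ → ℂ) ∘ ofComplex
      = fun w : ℂ => jFun (ofComplex w) - jFun τ₀ := by
    funext w
    show jFun (ofComplex w) - ι c₀ = _
    rw [hc]
  rw [this]
  exact hord

/-- **G-BR1 for a coordinate `y` related to `j`** (wrapper of `br_unif_of_relation`). -/
theorem br_unif_j_rel (c₀ : E) (e : ℕ) (he : 1 ≤ e) (τ₀ : ℍ) (hτ : jFun τ₀ = ι c₀)
    (hord : analyticOrderAt (fun w : ℂ => jFun (ofComplex w) - jFun τ₀) (τ₀ : ℂ) = e)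
    (y : IActField ι M) (c : E) (A B : IActField ι M)
    (hrel : (iactFJ ι M - iactFC ι M c₀) * A = (y - iactFC ι M c) ^ e * B)
    (O : ValuationSubring (IActField ι M)) (hE : ∀ e, iactFC ι M e ∈ O)
    (h : y - iactFC ι M c ∈ O) (h' : (y - iactFC ι M c)⁻¹ ∉ O)
    (hA : O.valuation A = 1) (hB : O.valuation B = 1) :
    ∀ t ∈ O, t⁻¹ ∉ O → t * (y - iactFC ι M c)⁻¹ ∈ O := by
  letI := iactQuotAction ι M
  have hfix : ∀ (q : SL(2, ℤ) ⧸ CongruenceSubgroup.Gamma M) (P : E[X]),
      q • Polynomial.eval₂ (iactFC ι M) (iactFJ ι M) P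
        = Polynomial.eval₂ (iactFC ι M) (iactFJ ι M) P := by
    intro q P
    obtain ⟨g, rfl⟩ := QuotientGroup.mk_surjective q
    exact iact_field_smul_eval₂ g P
  refine br_unif_of_relation (G := SL(2, ℤ) ⧸ CongruenceSubgroup.Gamma M)
    (iactFC ι M) (iactFJ ι M) ?_ ?_ ?_ c₀ (brTaylor ι M τ₀) ?_ e he ?_ y c A B hrel O hE h h'
    hA hB
  · intro q e
    have := hfix q (Polynomial.C e)
    rwa [eval₂_C] at this
  · intro q
    have := hfix q Polynomial.X
    rwa [eval₂_X] at this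
  · intro z hz
    obtain ⟨P, Q, -, hPQ⟩ := (iactQuot_fixed_iff z).1 hz
    exact ⟨P, Q, hPQ⟩
  · intro e
    exact ⟨ι e, brTaylor_const ι M τ₀ e⟩
  · exact brTaylor_order_j_of ι M τ₀ c₀ hτ e hord

variable {ι M}

/-- `y ≡ c ≠ 0` is a unit -/
theorem br_val_y (y : IActField ι M) (c : E) (hc0 : c ≠ 0)
    (O : ValuationSubring (IActField ι M)) (hE : ∀ e, iactFC ι M e ∈ O)
    (h : y - iactFC ι M c ∈ O) (h' : (y - iactFC ι M c)⁻¹ ∉ O) : O.valuation y = 1 := by
  have := br_val_eval_eq_one (iactFC ι M) c O hE h h' Polynomial.X (by rw [eval_X]; exact hc0)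
  rwa [eval₂_X] at this

/-- `y + d ≡ c + d ≠ 0` is a unit -/
theorem br_val_y_add (y : IActField ι M) (c d : E) (hcd : c + d ≠ 0)
    (O : ValuationSubring (IActField ι M)) (hE : ∀ e, iactFC ι M e ∈ O)
    (h : y - iactFC ι M c ∈ O) (h' : (y - iactFC ι M c)⁻¹ ∉ O) :
    O.valuation (y + iactFC ι M d) = 1 := by
  have := br_val_eval_eq_one (iactFC ι M) c O hE h h' (Polynomial.X + Polynomial.C d)
    (by rw [eval_add, eval_X, eval_C]; exact hcd)
  rwa [eval₂_add, eval₂_X, eval₂_C] at this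

theorem br_exists_point (a : ℂ) (h0 : a ≠ 0) (h1 : a ≠ 1728) :
    ∃ τ₀ : ℍ, jFun τ₀ = a ∧
      analyticOrderAt (fun w : ℂ => jFun (ofComplex w) - jFun τ₀) (τ₀ : ℂ) = (1 : ℕ) := by
  obtain ⟨τ₀, hτ₀⟩ := jFun_surjective a
  have h4 : E₄ τ₀ ≠ 0 := fun h => h0 (hτ₀ ▸ (jFun_eq_zero_iff τ₀).mpr h)
  have h6 : E₆ τ₀ ≠ 0 := fun h => h1 (hτ₀ ▸ (jFun_eq_1728_iff τ₀).mpr h)
  exact ⟨τ₀, hτ₀, by exact_mod_cast analyticOrderAt_jFun_sub_generic h4 h6⟩

/-! ### the coordinate `t₂` -/

/-- **G-BR1 for `t₂`**: `j y² = (y + 256)³`, branch set `{0, -64}`. -/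
theorem br_unramified_t2 (y : IActField ι M) (hy : iactFJ ι M * y ^ 2 = (y + 256) ^ 3)
    (c : E) (hc0 : c ≠ 0) (hc1 : c ≠ -64)
    (O : ValuationSubring (IActField ι M)) (hE : ∀ e, iactFC ι M e ∈ O)
    (h : y - iactFC ι M c ∈ O) (h' : (y - iactFC ι M c)⁻¹ ∉ O) :
    ∀ t ∈ O, t⁻¹ ∉ O → t * (y - iactFC ι M c)⁻¹ ∈ O := by
  have hvy : O.valuation y = 1 := br_val_y y c hc0 O hE h h'
  by_cases h256 : c = -256
  · -- over `j = 0`
    subst h256
    refine br_unif_j_rel ι M 0 3 (by norm_num) rho (by rw [jFun_rho, map_zero])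
      (by exact_mod_cast analyticOrderAt_jFun_sub_of_E₄ E₄_rho) y (-256) (y ^ 2) 1 ?_ O hE h h'
      (by rw [map_pow, hvy, one_pow]) (map_one _)
    rw [map_zero, sub_zero, hy, mul_one, map_neg, map_ofNat, sub_neg_eq_add]
  by_cases h512 : c = 512
  · -- over `j = 1728`
    subst h512
    have hB : O.valuation (y + iactFC ι M 64) = 1 :=
      br_val_y_add y 512 64 (by norm_num) O hE h h'
    refine br_unif_j_rel ι M 1728 2 (by norm_num) UpperHalfPlane.I
      (by rw [jFun_I, map_ofNat])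
      (by exact_mod_cast analyticOrderAt_jFun_sub_of_E₆ E₆_I) y 512 (y ^ 2)
      (y + iactFC ι M 64) ?_ O hE h h' (by rw [map_pow, hvy, one_pow]) hB
    rw [map_ofNat, map_ofNat, map_ofNat]
    linear_combination hy
  · -- generic
    have hc2 : c ^ 2 ≠ 0 := pow_ne_zero 2 hc0
    set c₀ : E := (c + 256) ^ 3 / c ^ 2 with hc₀
    have hc₀' : c₀ * c ^ 2 = (c + 256) ^ 3 := by rw [hc₀, div_mul_cancel₀ _ hc2]
    have hne0 : c₀ ≠ 0 := by
      rw [hc₀]
      refine div_ne_zero (pow_ne_zero 3 ?_) hc2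
      intro h0
      exact h256 (by linear_combination h0)
    have hne1 : c₀ ≠ 1728 := by
      intro h1
      have h2 : (c + 64) * (c - 512) ^ 2 = 0 := by
        have := hc₀'
        rw [h1] at this
        linear_combination -this
      rcases mul_eq_zero.1 h2 with h3 | h3
      · exact hc1 (by linear_combination h3)
      · exact h512 (by
          have := pow_eq_zero_iff (n := 2) (by norm_num) |>.1 h3
          linear_combination this)
    obtain ⟨τ₀, hτ₀, hord⟩ := br_exists_point (ι c₀)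
      (fun h0 => hne0 ((map_eq_zero ι).1 h0))
      (fun h1 => hne1 (ι.injective (by rw [h1, map_ofNat])))
    -- the cofactor polynomial
    set P : E[X] := Polynomial.C (c ^ 2) * ((Polynomial.X + 256) ^ 2
        + (Polynomial.X + 256) * Polynomial.C (c + 256) + Polynomial.C ((c + 256) ^ 2))
      - Polynomial.C ((c + 256) ^ 3) * (Polynomial.X + Polynomial.C c) with hP
    have hPc : P.eval c ≠ 0 := by
      have : P.eval c = c * (c + 256) ^ 2 * (c - 512) := by
        rw [hP]
        simp only [eval_sub, eval_mul, eval_add, eval_pow, eval_C, eval_X, eval_ofNat]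
        ring
      rw [this]
      refine mul_ne_zero (mul_ne_zero hc0 (pow_ne_zero 2 ?_)) (sub_ne_zero.2 h512)
      intro h0
      exact h256 (by linear_combination h0)
    have hB : O.valuation (P.eval₂ (iactFC ι M) y) = 1 :=
      br_val_eval_eq_one (iactFC ι M) c O hE h h' P hPc
    have hA : O.valuation (iactFC ι M (c ^ 2) * y ^ 2) = 1 := by
      rw [map_mul, br_val_const (iactFC ι M) O hE hc2, one_mul, Valuation.map_pow, hvy, one_pow]
    refine br_unif_j_rel ι M c₀ 1 le_rfl τ₀ hτ₀ hord y c (iactFC ι M (c ^ 2) * y ^ 2)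
      (P.eval₂ (iactFC ι M) y) ?_ O hE h h' hA hB
    have e3 : iactFC ι M c₀ * iactFC ι M c ^ 2 = (iactFC ι M c + 256) ^ 3 := by
      have := congrArg (iactFC ι M) hc₀'
      rwa [RingHom.map_mul, RingHom.map_pow, RingHom.map_pow, RingHom.map_add,
        map_ofNat (iactFC ι M)] at this
    rw [hP]
    simp only [eval₂_sub, eval₂_mul, eval₂_add, eval₂_pow, eval₂_C, eval₂_X, eval₂_ofNat,
      RingHom.map_pow, RingHom.map_add, map_ofNat (iactFC ι M), pow_one]
    linear_combination (iactFC ι M c) ^ 2 * hy - y ^ 2 * e3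

/-! ### the coordinate `t₃` -/

/-- **G-BR1 for `t₃`**: `j y³ = (y + 27)(y + 243)³`, branch set `{0, -27}`. -/
theorem br_unramified_t3 (y : IActField ι M)
    (hy : iactFJ ι M * y ^ 3 = (y + 27) * (y + 243) ^ 3)
    (c : E) (hc0 : c ≠ 0) (hc1 : c ≠ -27)
    (O : ValuationSubring (IActField ι M)) (hE : ∀ e, iactFC ι M e ∈ O)
    (h : y - iactFC ι M c ∈ O) (h' : (y - iactFC ι M c)⁻¹ ∉ O) :
    ∀ t ∈ O, t⁻¹ ∉ O → t * (y - iactFC ι M c)⁻¹ ∈ O := by
  have hvy : O.valuation y = 1 := br_val_y y c hc0 O hE h h'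
  by_cases h243 : c = -243
  · -- over `j = 0`
    subst h243
    have hB : O.valuation (y + iactFC ι M 27) = 1 :=
      br_val_y_add y (-243) 27 (by norm_num) O hE h h'
    refine br_unif_j_rel ι M 0 3 (by norm_num) rho (by rw [jFun_rho, map_zero])
      (by exact_mod_cast analyticOrderAt_jFun_sub_of_E₄ E₄_rho) y (-243) (y ^ 3)
      (y + iactFC ι M 27) ?_ O hE h h' (by rw [map_pow, hvy, one_pow]) hB
    rw [map_zero, sub_zero, hy, map_neg, map_ofNat, map_ofNat, sub_neg_eq_add]
    ring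
  by_cases hq : c ^ 2 - 486 * c - 19683 = 0
  · -- over `j = 1728`
    have hc243 : c + (c - 486) ≠ 0 := by
      intro h0
      have hc : c = 243 := by linear_combination h0 / 2
      rw [hc] at hq
      norm_num at hq
    have hB1 : O.valuation (y + iactFC ι M (c - 486)) = 1 :=
      br_val_y_add y c (c - 486) hc243 O hE h h'
    refine br_unif_j_rel ι M 1728 2 (by norm_num) UpperHalfPlane.I
      (by rw [jFun_I, map_ofNat])
      (by exact_mod_cast analyticOrderAt_jFun_sub_of_E₆ E₆_I) y c (y ^ 3)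
      ((y + iactFC ι M (c - 486)) ^ 2) ?_ O hE h h' (by rw [map_pow, hvy, one_pow])
      (by rw [map_pow, hB1, one_pow])
    have hq' : iactFC ι M c ^ 2 - 486 * iactFC ι M c - 19683 = 0 := by
      have := congrArg (iactFC ι M) hq
      rwa [RingHom.map_sub, RingHom.map_sub, RingHom.map_mul, RingHom.map_pow,
        map_ofNat (iactFC ι M), map_ofNat (iactFC ι M), RingHom.map_zero] at this
    rw [map_ofNat (iactFC ι M), RingHom.map_sub, map_ofNat (iactFC ι M)]
    linear_combination hy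
      + (2 * (y ^ 2 - 486 * y - 19683)
          - (iactFC ι M c ^ 2 - 486 * iactFC ι M c - 19683)) * hq'
  · -- generic
    have hc3 : c ^ 3 ≠ 0 := pow_ne_zero 3 hc0
    set c₀ : E := (c + 27) * (c + 243) ^ 3 / c ^ 3 with hc₀
    have hc₀' : c₀ * c ^ 3 = (c + 27) * (c + 243) ^ 3 := by rw [hc₀, div_mul_cancel₀ _ hc3]
    have h27 : c + 27 ≠ 0 := fun h0 => hc1 (by linear_combination h0)
    have h243' : c + 243 ≠ 0 := fun h0 => h243 (by linear_combination h0)
    have hne0 : c₀ ≠ 0 := by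
      rw [hc₀]
      exact div_ne_zero (mul_ne_zero h27 (pow_ne_zero 3 h243')) hc3
    have hne1 : c₀ ≠ 1728 := by
      intro h1
      have h2 : (c ^ 2 - 486 * c - 19683) ^ 2 = 0 := by
        have := hc₀'
        rw [h1] at this
        linear_combination -this
      exact hq (pow_eq_zero_iff (n := 2) (by norm_num) |>.1 h2)
    obtain ⟨τ₀, hτ₀, hord⟩ := br_exists_point (ι c₀)
      (fun h0 => hne0 ((map_eq_zero ι).1 h0))
      (fun h1 => hne1 (ι.injective (by rw [h1, map_ofNat])))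
    set P : E[X] := Polynomial.C (c ^ 3) * (Polynomial.X ^ 3 + Polynomial.X ^ 2 * Polynomial.C c
        + Polynomial.X * Polynomial.C (c ^ 2) + Polynomial.C (c ^ 3)
        + 756 * (Polynomial.X ^ 2 + Polynomial.X * Polynomial.C c + Polynomial.C (c ^ 2))
        + 196830 * (Polynomial.X + Polynomial.C c) + 19131876)
      - Polynomial.C ((c + 27) * (c + 243) ^ 3)
        * (Polynomial.X ^ 2 + Polynomial.X * Polynomial.C c + Polynomial.C (c ^ 2)) with hP
    have hPc : P.eval c ≠ 0 := by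
      have : P.eval c = c ^ 2 * (c + 243) ^ 2 * (c ^ 2 - 486 * c - 19683) := by
        rw [hP]
        simp only [eval_sub, eval_mul, eval_add, eval_pow, eval_C, eval_X, eval_ofNat]
        ring
      rw [this]
      exact mul_ne_zero (mul_ne_zero (pow_ne_zero 2 hc0) (pow_ne_zero 2 h243')) hq
    have hB : O.valuation (P.eval₂ (iactFC ι M) y) = 1 :=
      br_val_eval_eq_one (iactFC ι M) c O hE h h' P hPc
    have hA : O.valuation (iactFC ι M (c ^ 3) * y ^ 3) = 1 := by
      rw [map_mul, br_val_const (iactFC ι M) O hE hc3, one_mul, Valuation.map_pow, hvy, one_pow]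
    refine br_unif_j_rel ι M c₀ 1 le_rfl τ₀ hτ₀ hord y c (iactFC ι M (c ^ 3) * y ^ 3)
      (P.eval₂ (iactFC ι M) y) ?_ O hE h h' hA hB
    have e3 : iactFC ι M c₀ * iactFC ι M c ^ 3
        = (iactFC ι M c + 27) * (iactFC ι M c + 243) ^ 3 := by
      have := congrArg (iactFC ι M) hc₀'
      rwa [RingHom.map_mul, RingHom.map_pow, RingHom.map_mul, RingHom.map_pow, RingHom.map_add,
        RingHom.map_add, map_ofNat (iactFC ι M), map_ofNat (iactFC ι M)] at this
    rw [hP]
    simp only [eval₂_sub, eval₂_mul, eval₂_add, eval₂_pow, eval₂_C, eval₂_X, eval₂_ofNat,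
      RingHom.map_pow, RingHom.map_add, RingHom.map_mul, map_ofNat (iactFC ι M), pow_one]
    linear_combination (iactFC ι M c) ^ 3 * hy - y ^ 3 * e3

end Fermat.Agent.S48.H48
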